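import Mathlib
import Fermat.Agent.Curve.Integral

/-!
# Counting functions with bounded poles through the norm to a polynomial ring

Let `F` be a finite extension of the field of fractions of `R = K[X₁, …, X_s]` and let `W` be a
space of `R`-combinations of finitely many fixed elements of `F` such that, at every valuation over
the degree valuation, its members have a pole of order at most `e`. Then the norm of a member has
degree at most `[F : K(X)] e`, while a member with coefficients of high order at the origin has norm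
of high order; so `W` injects into truncated coefficient vectors.
-/

set_option autoImplicit false

open MvPolynomial

noncomputable section

namespace FermatAgent.AV.Bound

section Degree

variable (K : Type*) [Field K] (σ : Type*)

/-- The rational functions of degree at most zero. -/
def degLE (L₀ : Type*) [Field L₀] [Algebra (MvPolynomial σ K) L₀]
    [IsFractionRing (MvPolynomial σ K) L₀] : ValuationSubring L₀ where
  carrier := {x | ∃ a b : (MvPolynomial σ K), b ≠ 0 ∧
    x = algebraMap (MvPolynomial σ K) L₀ a / algebraMap (MvPolynomial σ K) L₀ b ∧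
    a.totalDegree ≤ b.totalDegree}
  zero_mem' := ⟨0, 1, one_ne_zero, by simp, by simp⟩
  one_mem' := ⟨1, 1, one_ne_zero, by simp, le_rfl⟩
  mul_mem' := by
    rintro _ _ ⟨a, b, hb, rfl, h⟩ ⟨c, d, hd, rfl, h'⟩
    refine ⟨a * c, b * d, mul_ne_zero hb hd, by rw [map_mul, map_mul, div_mul_div_comm],
      (totalDegree_mul a c).trans ?_⟩
    rw [totalDegree_mul_of_isDomain hb hd]
    omega
  add_mem' := by
    rintro _ _ ⟨a, b, hb, rfl, h⟩ ⟨c, d, hd, rfl, h'⟩
    refine ⟨a * d + b * c, b * d, mul_ne_zero hb hd, ?_, (totalDegree_add _ _).trans ?_⟩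
    · rw [map_add, map_mul, map_mul, map_mul,
        div_add_div _ _
          ((map_ne_zero_iff _ (IsFractionRing.injective (MvPolynomial σ K) L₀)).mpr hb)
          ((map_ne_zero_iff _ (IsFractionRing.injective (MvPolynomial σ K) L₀)).mpr hd)]
    · rw [totalDegree_mul_of_isDomain hb hd, max_le_iff]
      refine ⟨(totalDegree_mul a d).trans ?_, (totalDegree_mul b c).trans ?_⟩ <;> omega
  neg_mem' := by
    rintro _ ⟨a, b, hb, rfl, h⟩
    exact ⟨-a, b, hb, by rw [map_neg, neg_div], by rwa [totalDegree_neg]⟩
  mem_or_inv_mem' x := by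
    obtain ⟨a, b, hb, rfl⟩ := IsFractionRing.div_surjective (A := MvPolynomial σ K) x
    rcases le_total a.totalDegree b.totalDegree with h | h
    · exact Or.inl ⟨a, b, nonZeroDivisors.ne_zero hb, rfl, h⟩
    · rcases eq_or_ne a 0 with rfl | ha
      · exact Or.inl ⟨0, 1, one_ne_zero, by simp, by simp⟩
      · exact Or.inr ⟨b, a, ha, by rw [inv_div], h⟩

variable {K σ} {L₀ : Type*} [Field L₀] [Algebra (MvPolynomial σ K) L₀]
  [IsFractionRing (MvPolynomial σ K) L₀]

theorem div_mem_degLE {a b : (MvPolynomial σ K)} (hb : b ≠ 0) (h : a.totalDegree ≤ b.totalDegree) :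
    algebraMap (MvPolynomial σ K) L₀ a / algebraMap (MvPolynomial σ K) L₀ b ∈ degLE K σ L₀ :=
  ⟨a, b, hb, rfl, h⟩

theorem totalDegree_le_of_div_mem {a b : (MvPolynomial σ K)} (hb : b ≠ 0)
    (h : algebraMap (MvPolynomial σ K) L₀ a / algebraMap (MvPolynomial σ K) L₀ b ∈ degLE K σ L₀) :
    a.totalDegree ≤ b.totalDegree := by
  obtain ⟨c, d, hd, he, hcd⟩ := h
  rcases eq_or_ne a 0 with rfl | ha
  · simp
  have hinj := IsFractionRing.injective (MvPolynomial σ K) L₀
  rw [div_eq_div_iff ((map_ne_zero_iff _ hinj).mpr hb) ((map_ne_zero_iff _ hinj).mpr hd),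
    ← map_mul, ← map_mul] at he
  have h1 : a * d = c * b := hinj he
  have hc : c ≠ 0 := fun h0 => mul_ne_zero ha hd (by rw [h1, h0, zero_mul])
  have h2 := congrArg totalDegree h1
  rw [totalDegree_mul_of_isDomain ha hd, totalDegree_mul_of_isDomain hc hb] at h2
  omega

end Degree

theorem det_mem_pow {A : Type*} [CommRing A] {n : Type*} [Fintype n] [DecidableEq n] (J : Ideal A)
    (M : Matrix n n A) (h : ∀ i j, M i j ∈ J) : M.det ∈ J ^ Fintype.card n := by
  rw [Matrix.det_apply]
  refine Ideal.sum_mem _ fun g _ => ?_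
  rw [Units.smul_def, zsmul_eq_mul]
  refine Ideal.mul_mem_left _ _ ?_
  rw [← Finset.card_univ, ← Finset.prod_const]
  exact Ideal.prod_mem_prod fun i _ => h _ i

theorem eq_zero_of_mem_pow_idealOfVars {K σ : Type*} [CommRing K] {p : MvPolynomial σ K} {N : ℕ}
    (h : p ∈ idealOfVars σ K ^ N) (hd : p.totalDegree < N) : p = 0 := by
  by_contra hne
  obtain ⟨x, hx⟩ := Finset.nonempty_iff_ne_empty.mpr (mt support_eq_empty.mp hne)
  have h1 := (mem_pow_idealOfVars_iff N p).mp h x hx
  have h2 : x.sum (fun _ e => e) ≤ p.totalDegree := le_totalDegree hx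
  rw [Finsupp.degree_apply] at h1
  change x.support.sum (fun i => x i) ≤ _ at h2
  omega

/-- The polynomials with all exponents at most `N`. -/
theorem finrank_restrictDegree_eq {K : Type*} [Field K] (s N : ℕ) :
    Module.finrank K (restrictDegree (Fin s) K N) = (N + 1) ^ s := by
  have e : {x : Fin s →₀ ℕ // ∀ i, x i ≤ N} ≃ (Fin s → Fin (N + 1)) :=
    { toFun := fun x i => ⟨x.1 i, Nat.lt_succ_of_le (x.2 i)⟩
      invFun := fun f => ⟨Finsupp.equivFunOnFinite.symm fun i => (f i : ℕ),
        fun i => by simpa using Nat.le_of_lt_succ (f i).2⟩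
      left_inv := fun x => Subtype.ext (Finsupp.ext fun i => by simp)
      right_inv := fun f => funext fun i => Fin.ext (by simp) }
  refine (Module.finrank_eq_nat_card_basis
    (basisRestrictSupport K {x : Fin s →₀ ℕ | ∀ i, x i ≤ N})).trans ?_
  exact (Nat.card_congr e).trans (by simp)

section Norm

variable {K : Type*} [Field K] {s : ℕ} {F : Type*} [Field F]
  [Algebra (MvPolynomial (Fin s) K) F] [Algebra (FractionRing (MvPolynomial (Fin s) K)) F]
  [IsScalarTower (MvPolynomial (Fin s) K) (FractionRing (MvPolynomial (Fin s) K)) F]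
  [FiniteDimensional (FractionRing (MvPolynomial (Fin s) K)) F]

local notation "R" => MvPolynomial (Fin s) K
local notation "L₀" => FractionRing (MvPolynomial (Fin s) K)

/-- A polynomial of degree one dominating the variables (or `1` when there is none). -/
def domVar (K : Type*) [Field K] (s : ℕ) : MvPolynomial (Fin s) K :=
  if h : 0 < s then X ⟨0, h⟩ else 1

theorem domVar_ne_zero : domVar K s ≠ 0 := by
  rw [domVar]
  split
  · exact X_ne_zero _
  · exact one_ne_zero

theorem totalDegree_domVar_le : (domVar K s).totalDegree ≤ 1 := by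
  rw [domVar]
  split <;> simp

theorem totalDegree_X_le_domVar (i : Fin s) :
    (X i : R).totalDegree ≤ (domVar K s).totalDegree := by
  rw [domVar, dif_pos i.pos]
  simp

/-- Poles of order at most `e` at the valuations over the degree valuation bound the degree of
the norm. -/
theorem totalDegree_norm_le {f : F} {e : ℕ}
    (hf : ∀ V : ValuationSubring F, (∀ x ∈ degLE K (Fin s) L₀, algebraMap L₀ F x ∈ V) →
      f / algebraMap R F (domVar K s) ^ e ∈ V)
    {p : R} (hp : algebraMap R L₀ p = Algebra.norm L₀ f) :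
    p.totalDegree ≤ Module.finrank L₀ F * e := by
  set O := degLE K (Fin s) L₀
  set z := f / algebraMap R F (domVar K s) ^ e
  have hint : IsIntegral O z :=
    FermatAgent.Curve.isIntegralElem_of_forall_valuationSubring _ fun V hV =>
      hf V fun x hx => hV ⟨x, hx⟩
  have h1 := Algebra.isIntegral_norm L₀ hint
  obtain ⟨⟨y, hy⟩, hye⟩ := IsIntegrallyClosed.isIntegral_iff.mp h1
  have h2 : Algebra.norm L₀ z =
      algebraMap R L₀ p / algebraMap R L₀ (domVar K s ^ (e * Module.finrank L₀ F)) := by
    have hne : algebraMap R F (domVar K s) ^ e ≠ 0 := pow_ne_zero _ (by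
      rw [IsScalarTower.algebraMap_apply R L₀ F]
      exact (map_ne_zero _).mpr
        ((map_ne_zero_iff _ (IsFractionRing.injective R L₀)).mpr domVar_ne_zero))
    rw [eq_div_iff ((map_ne_zero_iff _ (IsFractionRing.injective R L₀)).mpr
      (pow_ne_zero _ domVar_ne_zero)), hp, ← div_mul_cancel₀ f hne, map_mul, map_pow,
      map_pow, IsScalarTower.algebraMap_apply R L₀ F, Algebra.norm_algebraMap, ← pow_mul,
      mul_comm (Module.finrank L₀ F)]
    simp only [z, IsScalarTower.algebraMap_apply R L₀ F]
  have h3 := totalDegree_le_of_div_mem (pow_ne_zero _ domVar_ne_zero)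
    (h2 ▸ (show Algebra.norm L₀ z ∈ O from hye ▸ hy))
  refine h3.trans ((totalDegree_pow _ _).trans ?_)
  rw [mul_comm (Module.finrank L₀ F)]
  exact (Nat.mul_le_mul_left _ totalDegree_domVar_le).trans (mul_one _).le

/-- **The upper count**: for `r` elements `b` of `F`, integral over `R = K[X_1, ..., X_s]`, there
is a `δ` such that a space of `R`-combinations of the `b j` whose members have poles of order at
most `e` over the degree valuation has dimension at most `r (e + δ + 1) ^ s`. -/
theorem exists_finrank_le [Algebra K F] [IsScalarTower K R F] {r : ℕ} (b : Fin r → F)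
    (hb : ∀ j, IsIntegral R (b j)) :
    ∃ δ : ℕ, ∀ (W : Submodule K F) (e : ℕ),
      (W : Set F) ⊆ (Submodule.span R (Set.range b) : Submodule R F) →
      (∀ f ∈ W, ∀ V : ValuationSubring F,
        (∀ x ∈ degLE K (Fin s) L₀, algebraMap L₀ F x ∈ V) →
        f / algebraMap R F (domVar K s) ^ e ∈ V) →
      Module.Finite K W ∧ Module.finrank K W ≤ r * (e + δ + 1) ^ s := by
  classical
  set d := Module.finrank L₀ F
  set bb := Module.finBasis L₀ F
  obtain ⟨Δ, hΔ⟩ := IsLocalization.exist_integer_multiples_of_finite (nonZeroDivisors R)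
    (fun x : Fin r × Fin d × Fin d => Algebra.leftMulMatrix bb (b x.1) x.2.1 x.2.2)
  choose M hM using hΔ
  refine ⟨(Δ : R).totalDegree, fun W e hW hV => ?_⟩
  set N := e + (Δ : R).totalDegree
  have hcl : ∀ w : W, ∃ u : Fin r → R, ∑ j, u j • b j = (w : F) := fun w =>
    (Submodule.mem_span_range_iff_exists_fun R).mp (hW w.2)
  let T : (Fin r → R) →ₗ[K] F := (Fintype.linearCombination R b).restrictScalars K
  obtain ⟨S, hS'⟩ := Module.projective_lifting_property T.rangeRestrict
    (W.subtype.codRestrict (LinearMap.range T) fun w => hcl w) T.surjective_rangeRestrict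
  have hS : ∀ w, T (S w) = w := fun w => congrArg Subtype.val (LinearMap.congr_fun hS' w)
  let τ : R →ₗ[K] ({x : Fin s →₀ ℕ // ∀ i, x i ≤ N} → K) :=
    LinearMap.pi fun x => (lcoeff K x.1 : R →ₗ[K] K)
  let Φ : W →ₗ[K] (Fin r → {x : Fin s →₀ ℕ // ∀ i, x i ≤ N} → K) :=
    LinearMap.pi fun j => τ ∘ₗ LinearMap.proj j ∘ₗ S
  have : Finite {x : Fin s →₀ ℕ // ∀ i, x i ≤ N} :=
    Finite.of_injective (fun x i => (⟨x.1 i, Nat.lt_succ_of_le (x.2 i)⟩ : Fin (N + 1)))
      fun x y h => Subtype.ext (Finsupp.ext fun i => congrArg Fin.val (congrFun h i))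
  have : Fintype {x : Fin s →₀ ℕ // ∀ i, x i ≤ N} := Fintype.ofFinite _
  have hinj : Function.Injective Φ := by
    rw [← LinearMap.ker_eq_bot, LinearMap.ker_eq_bot']
    intro w hw
    set u := S w
    have hu : ∀ j, u j ∈ idealOfVars (Fin s) K ^ (N + 1) := fun j => by
      rw [mem_pow_idealOfVars_iff']
      intro x hx
      refine congrFun (congrFun hw j) ⟨x, fun i => ?_⟩
      have : x i ≤ x.degree := Finsupp.le_degree i x
      omega
    have hwe : (w : F) = ∑ j, u j • b j := (hS w).symm
    set Mw : Matrix (Fin d) (Fin d) R := fun a c => ∑ j, u j * M (j, a, c)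
    have hMw : algebraMap R L₀ (Δ : R) • Algebra.leftMulMatrix bb (w : F) =
        Mw.map (algebraMap R L₀) := by
      ext a c
      rw [hwe, map_sum, Matrix.smul_apply, Matrix.sum_apply, Matrix.map_apply, map_sum,
        smul_eq_mul, Finset.mul_sum]
      refine Finset.sum_congr rfl fun j _ => ?_
      rw [map_mul, hM (j, a, c), ← algebraMap_smul L₀ (u j) (b j), map_smul, Matrix.smul_apply,
        smul_eq_mul, Algebra.smul_def]
      ring
    obtain ⟨p, hp⟩ : ∃ p : R, algebraMap R L₀ p = Algebra.norm L₀ (w : F) := by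
      refine IsIntegrallyClosed.isIntegral_iff.mp (Algebra.isIntegral_norm L₀ ?_)
      rw [hwe]
      exact IsIntegral.sum _ fun j _ => by
        rw [Algebra.smul_def]
        exact isIntegral_algebraMap.mul (hb j)
    have hdet : (Δ : R) ^ d * p = Mw.det := by
      refine IsFractionRing.injective R L₀ ?_
      rw [map_mul, map_pow, hp, Algebra.norm_eq_matrix_det bb, ← smul_eq_mul, RingHom.map_det,
        RingHom.mapMatrix_apply, ← hMw, Matrix.det_smul, Fintype.card_fin, smul_eq_mul]
    have h1 : (Δ : R) ^ d * p ∈ idealOfVars (Fin s) K ^ ((N + 1) * d) := by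
      rw [hdet, pow_mul]
      have := det_mem_pow (idealOfVars (Fin s) K ^ (N + 1)) Mw
        fun a c => Ideal.sum_mem _ fun j _ => Ideal.mul_mem_right _ _ (hu j)
      rwa [Fintype.card_fin] at this
    have hdpos : 0 < d := Module.finrank_pos
    have h2 : ((Δ : R) ^ d * p).totalDegree < (N + 1) * d := by
      have hpd := totalDegree_norm_le (f := (w : F)) (e := e) (hV _ w.2) hp
      refine (totalDegree_mul _ _).trans_lt (Nat.lt_of_le_of_lt
        (Nat.add_le_add (totalDegree_pow _ _) hpd) ?_)
      simp only [N, add_mul, one_mul]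
      rw [mul_comm d e, mul_comm (Δ : R).totalDegree d]
      omega
    have h3 := eq_zero_of_mem_pow_idealOfVars h1 h2
    rcases mul_eq_zero.mp h3 with h | h
    · exact absurd h (pow_ne_zero _ (nonZeroDivisors.ne_zero Δ.2))
    · rw [h, map_zero] at hp
      exact Subtype.ext (Algebra.norm_eq_zero_iff.mp hp.symm)
  refine ⟨Module.Finite.of_injective Φ hinj,
    (LinearMap.finrank_le_finrank_of_injective hinj).trans ?_⟩
  simp only [Module.finrank_pi_fintype, Module.finrank_self, Finset.sum_const, Finset.card_univ,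
    Fintype.card_fin, smul_eq_mul, mul_one]
  refine Nat.mul_le_mul_left r ?_
  rw [← finrank_restrictDegree_eq (K := K) s N, ← Nat.card_eq_fintype_card]
  exact (Module.finrank_eq_nat_card_basis
    (basisRestrictSupport K {x : Fin s →₀ ℕ | ∀ i, x i ≤ N})).ge

end Norm

end FermatAgent.AV.Bound
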