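import Fermat.Agent.AV.Bound.Count

/-!
# Growth of spaces of functions with bounded poles

Let `F` be a function field of `g` variables over a perfect field `K` and `z` finitely many elements
of `F`. The functions whose pole at every valuation ring over the constants is at most `m` times the
largest pole of the `z i` form a space of dimension at most `c (m + 1) ^ g`, and at least
`(m + 1) ^ g` for `g m` in place of `m` when `F` is algebraic over `K[z]`.
-/

set_option autoImplicit false

open MvPolynomial

noncomputable section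

namespace FermatAgent.AV.Bound

universe uK uF uκ

variable (K : Type uK) {F : Type uF} [Field K] [Field F] [Algebra K F] {κ : Type uκ}

/-- The functions with poles at most `m` times the largest pole of the family `z`. -/
def poleSpace (z : κ → F) (m : ℕ) : Submodule K F where
  carrier := {f | ∀ V : ValuationSubring F, (∀ a : K, algebraMap K F a ∈ V) → ∀ t : F, t⁻¹ ∈ V →
    (∀ i, z i / t ∈ V) → f / t ^ m ∈ V}
  add_mem' := fun {f h} hf hh V hK t ht hz => by
    rw [add_div]; exact V.add_mem _ _ (hf V hK t ht hz) (hh V hK t ht hz)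
  zero_mem' := fun V _ t _ _ => by rw [zero_div]; exact V.zero_mem
  smul_mem' := fun a f hf V hK t ht hz => by
    rw [Algebra.smul_def, mul_div_assoc]; exact V.mul_mem _ _ (hK a) (hf V hK t ht hz)

variable {K} {z : κ → F}

theorem div_pow_mem_of_le {V : ValuationSubring F} {t x : F} (ht : t⁻¹ ∈ V) {a b : ℕ}
    (h : x / t ^ a ∈ V) (hab : a ≤ b) : x / t ^ b ∈ V := by
  rw [← Nat.add_sub_cancel' hab, pow_add, ← div_div, div_eq_mul_inv _ (t ^ (b - a)), ← inv_pow]
  exact V.mul_mem _ _ h (pow_mem ht _)

theorem poleSpace_mono {m m' : ℕ} (h : m ≤ m') : poleSpace K z m ≤ poleSpace K z m' :=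
  fun _ hf V hK t ht hz => div_pow_mem_of_le ht (hf V hK t ht hz) h

theorem mul_mem_poleSpace {m n : ℕ} {a b : F} (ha : a ∈ poleSpace K z m)
    (hb : b ∈ poleSpace K z n) :
    a * b ∈ poleSpace K z (m + n) := fun V hK t ht hz => by
  rw [pow_add, ← div_mul_div_comm]
  exact V.mul_mem _ _ (ha V hK t ht hz) (hb V hK t ht hz)

theorem one_mem_poleSpace (m : ℕ) : (1 : F) ∈ poleSpace K z m := fun V _ t ht _ => by
  rw [one_div, ← inv_pow]; exact pow_mem ht _

theorem self_mem_poleSpace (i : κ) : z i ∈ poleSpace K z 1 := fun V _ t _ hz => by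
  rw [pow_one]; exact hz i

theorem pow_mem_poleSpace {m : ℕ} {a : F} (ha : a ∈ poleSpace K z m) (n : ℕ) :
    a ^ n ∈ poleSpace K z (n * m) := by
  induction n with
  | zero => rw [pow_zero]; exact one_mem_poleSpace _
  | succ n ih => rw [pow_succ, Nat.succ_mul]; exact mul_mem_poleSpace ih ha

/-- The pole condition with the scale taken among `1` and the members of the family. -/
theorem mem_poleSpace_iff [Finite κ] {m : ℕ} {f : F} : f ∈ poleSpace K z m ↔
    ∀ V : ValuationSubring F, (∀ a : K, algebraMap K F a ∈ V) →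
      f ∈ V ∨ ∃ i, z i ≠ 0 ∧ f / z i ^ m ∈ V := by
  classical
  have := Fintype.ofFinite κ
  refine ⟨fun hf V hK => ?_, fun hf V hK t ht hz => ?_⟩
  · by_cases h : ∀ i, z i ∈ V
    · left
      simpa using hf V hK 1 (by simp) fun i => by rw [div_one]; exact h i
    · right
      obtain ⟨i₁, hi₁⟩ := not_forall.mp h
      obtain ⟨i, -, hi⟩ := Finset.exists_max_image Finset.univ (fun i => V.valuation (z i))
        ⟨i₁, Finset.mem_univ _⟩
      have h1 : 1 < V.valuation (z i) :=
        (not_le.mp fun hle => hi₁ ((V.valuation_le_one_iff _).mp hle)).trans_le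
          (hi i₁ (Finset.mem_univ _))
      have h0 : z i ≠ 0 := fun h0 => by simp [h0] at h1
      refine ⟨i, h0, hf V hK (z i) ?_ fun k => ?_⟩
      · rw [← V.valuation_le_one_iff, map_inv₀]
        exact (inv_le_one₀ (zero_lt_one.trans h1)).mpr h1.le
      · rw [← V.valuation_le_one_iff, map_div₀]
        exact (div_le_one₀ (zero_lt_one.trans h1)).mpr (hi k (Finset.mem_univ _))
  · rcases hf V hK with h | ⟨i, h0, h⟩
    · rw [div_eq_mul_inv, ← inv_pow]
      exact V.mul_mem _ _ h (pow_mem ht _)
    · rw [show f / t ^ m = f / z i ^ m * (z i / t) ^ m by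
        rw [div_pow, div_mul_div_cancel₀ (pow_ne_zero _ h0)]]
      exact V.mul_mem _ _ h (pow_mem (hz i) _)

section Tame

variable {s : ℕ} (φ : MvPolynomial (Fin s) K →ₐ[K] F)

/-- The valuations and the scales used to measure poles against `φ`. -/
def Gauge (V : ValuationSubring F) (t : F) : Prop :=
  (∀ a : K, algebraMap K F a ∈ V) ∧ t⁻¹ ∈ V ∧ ∀ i, φ (X i) / t ∈ V

/-- The elements whose poles are bounded by a power of the scale. -/
def bddAlg : Subalgebra K F where
  carrier := {x | ∃ e : ℕ, ∀ (V : ValuationSubring F) (t : F), Gauge φ V t → x / t ^ e ∈ V}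
  one_mem' := ⟨0, fun V t _ => by simp⟩
  zero_mem' := ⟨0, fun V t _ => by simp⟩
  mul_mem' := by
    rintro x y ⟨e, he⟩ ⟨e', he'⟩
    refine ⟨e + e', fun V t ht => ?_⟩
    rw [pow_add, ← div_mul_div_comm]
    exact V.mul_mem _ _ (he V t ht) (he' V t ht)
  add_mem' := by
    rintro x y ⟨e, he⟩ ⟨e', he'⟩
    refine ⟨e + e', fun V t ht => ?_⟩
    rw [add_div]
    exact V.add_mem _ _ (div_pow_mem_of_le ht.2.1 (he V t ht) (Nat.le_add_right ..))
      (div_pow_mem_of_le ht.2.1 (he' V t ht) (Nat.le_add_left ..))
  algebraMap_mem' a := ⟨0, fun V t ht => by simpa using ht.1 a⟩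

variable {φ}

theorem mem_bddAlg_poly (p : MvPolynomial (Fin s) K) : φ p ∈ bddAlg φ := by
  have h : Algebra.adjoin K (Set.range X) ≤ (bddAlg φ).comap φ := Algebra.adjoin_le <| by
    rintro _ ⟨i, rfl⟩
    exact ⟨1, fun V t ht => by rw [pow_one]; exact ht.2.2 i⟩
  exact h (by rw [adjoin_range_X]; trivial)

/-- A root of a monic polynomial with tame coefficients is tame. -/
theorem mem_bddAlg_of_isIntegral {x : F} (hx : φ.toRingHom.IsIntegralElem x) : x ∈ bddAlg φ := by
  classical
  obtain ⟨p, hp, he⟩ := hx
  choose e hh using fun j : ℕ => (mem_bddAlg_poly (φ := φ) (p.coeff j))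
  set E := (Finset.range p.natDegree).sup e
  refine ⟨E, fun V t ht => ?_⟩
  obtain ⟨y, hy⟩ := (IsIntegrallyClosed.isIntegral_iff (R := V) (K := F)).mp
    (FermatAgent.Curve.isIntegral_scaled_root V.toSubring (hp.map φ.toRingHom) (r := (t ^ E)⁻¹)
      (z := x) (by rwa [Polynomial.IsRoot, Polynomial.eval_map]) fun j hj => by
      rw [hp.natDegree_map] at hj ⊢
      rw [Polynomial.coeff_map, inv_pow, ← div_eq_mul_inv, ← pow_mul]
      exact div_pow_mem_of_le ht.2.1 (hh j V t ht) ((Finset.le_sup (f := e)
        (Finset.mem_range.mpr hj)).trans (Nat.le_mul_of_pos_right _ (by omega))))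
  rw [div_eq_mul_inv, mul_comm, ← hy]
  exact y.2

end Tame

variable {g : ℕ}

/-- Noether normalisation of a finitely generated algebra with fraction field `F`. -/
theorem exists_normalisation (hg : Algebra.trdeg K F = g) (B : Subalgebra K F) (hfg : B.FG)
    (frac : ∀ x : F, ∃ a ∈ B, ∃ b ∈ B, x = a / b) :
    ∃ (φ : MvPolynomial (Fin g) K →ₐ[K] F) (r : ℕ) (b : Fin r → F),
      Function.Injective φ ∧ (∀ x ∈ B, φ.toRingHom.IsIntegralElem x) ∧
      (∀ j, b j ∈ B) ∧ ∀ x ∈ B, ∃ u : Fin r → MvPolynomial (Fin g) K, x = ∑ j, φ (u j) * b j := by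
  classical
  have : Algebra.FiniteType K B := (Subalgebra.fg_iff_finiteType _).mp hfg
  obtain ⟨s, ψ, hψ, hfin⟩ := exists_finite_inj_algHom_of_fg K B
  set φ := B.val.comp ψ
  have hφ : Function.Injective φ := Subtype.val_injective.comp hψ
  let : Algebra (MvPolynomial (Fin s) K) B := ψ.toRingHom.toAlgebra
  have : Module.Finite (MvPolynomial (Fin s) K) B := hfin
  have hint : ∀ x ∈ B, φ.toRingHom.IsIntegralElem x := fun x hx => by
    obtain ⟨p, hp, he⟩ := Algebra.IsIntegral.isIntegral (R := MvPolynomial (Fin s) K)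
      (⟨x, hx⟩ : B)
    refine ⟨p, hp, ?_⟩
    have h := congrArg B.val he
    rw [map_zero, ← RingHom.coe_coe, Polynomial.hom_eval₂] at h
    exact h
  obtain ⟨r, b, hb⟩ := Module.Finite.exists_fin (R := MvPolynomial (Fin s) K) (M := B)
  have hs : s = g := by
    let : Algebra (MvPolynomial (Fin s) K) F := φ.toRingHom.toAlgebra
    have : IsScalarTower K (MvPolynomial (Fin s) K) F :=
      IsScalarTower.of_algebraMap_eq fun a => (φ.commutes a).symm
    have : FaithfulSMul (MvPolynomial (Fin s) K) F :=
      (faithfulSMul_iff_algebraMap_injective _ _).mpr hφ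
    have : Algebra.IsAlgebraic (MvPolynomial (Fin s) K) F := by
      refine ⟨fun x => ?_⟩
      obtain ⟨a, ha, c, hc, rfl⟩ := frac x
      rw [div_eq_mul_inv]
      exact (show IsIntegral _ a from hint a ha).isAlgebraic.mul
        (show IsIntegral _ c from hint c hc).isAlgebraic.inv
    have h := lift_trdeg_add_eq K (MvPolynomial (Fin s) K) F
    rw [trdeg_eq_zero (R := MvPolynomial (Fin s) K) (A := F), Cardinal.lift_zero, add_zero, hg,
      MvPolynomial.trdeg_of_isDomain, Cardinal.mk_fin] at h
    simpa using h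
  subst hs
  refine ⟨φ, r, fun j => (b j : F), hφ, hint, fun j => (b j).2, fun x hx => ?_⟩
  obtain ⟨u, hu⟩ := (Submodule.mem_span_range_iff_exists_fun _).mp
    (hb ▸ Submodule.mem_top : (⟨x, hx⟩ : B) ∈ Submodule.span _ (Set.range b))
  refine ⟨u, ?_⟩
  have h := congrArg B.val hu
  rw [map_sum] at h
  refine h.symm.trans (Finset.sum_congr rfl fun j _ => ?_)
  rw [Algebra.smul_def, map_mul]
  rfl

/-- The `p ^ n`-th powers of the elements of a subspace form a subspace of the same rank, the base
field being perfect of exponential characteristic `p`. -/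
theorem exists_pow_submodule [PerfectField K] (p n : ℕ) [ExpChar K p] [ExpChar F p]
    (V : Submodule K F) : ∃ W : Submodule K F, (∀ y, y ∈ W ↔ ∃ f ∈ V, y = f ^ p ^ n) ∧
      Module.rank K V = Module.rank K W := by
  have : PerfectRing K p := PerfectField.toPerfectRing p
  let W : Submodule K F :=
    { carrier := {y | ∃ f ∈ V, y = f ^ p ^ n}
      add_mem' := by
        rintro _ _ ⟨f, hf, rfl⟩ ⟨h, hh, rfl⟩
        exact ⟨f + h, add_mem hf hh, (add_pow_expChar_pow f h p n).symm⟩
      zero_mem' := ⟨0, zero_mem _, (zero_pow (pow_ne_zero _ (expChar_pos K p).ne')).symm⟩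
      smul_mem' := by
        rintro a _ ⟨f, hf, rfl⟩
        obtain ⟨α, rfl⟩ := (bijective_iterateFrobenius K p n).2 a
        exact ⟨α • f, Submodule.smul_mem _ _ hf, by rw [smul_pow, iterateFrobenius_def]⟩ }
  have hinj : Function.Injective fun f : F => f ^ p ^ n := iterateFrobenius_inj F p n
  let j₀ : V →+ W :=
    { toFun := fun f => ⟨(f : F) ^ p ^ n, f, f.2, rfl⟩
      map_zero' := Subtype.ext (zero_pow (pow_ne_zero _ (expChar_pos K p).ne'))
      map_add' := fun f h => Subtype.ext (add_pow_expChar_pow (f : F) h p n) }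
  let j : V ≃+ W := AddEquiv.ofBijective j₀
    ⟨fun f h hh => Subtype.ext (hinj (congrArg Subtype.val hh)),
      fun ⟨y, f, hf, hy⟩ => ⟨⟨f, hf⟩, Subtype.ext hy.symm⟩⟩
  exact ⟨W, fun y => Iff.rfl,
    rank_eq_of_equiv_equiv (iterateFrobenius K p n) j (bijective_iterateFrobenius K p n)
      fun a f => Subtype.ext (by simp [j, j₀, smul_pow, iterateFrobenius_def])⟩

/-- **The upper bound**: the functions with poles at most `m` times those of the family `z` form
a space of dimension at most `c (m + 1) ^ g`, `g` being the transcendence degree. -/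
theorem exists_finrank_poleSpace_le [PerfectField K] [Finite κ] (z : κ → F)
    (hfg : (⊤ : IntermediateField K F).FG) (hg : Algebra.trdeg K F = g) :
    ∃ c : ℕ, ∀ m : ℕ,
      Module.Finite K (poleSpace K z m) ∧ Module.finrank K (poleSpace K z m) ≤ c * (m + 1) ^ g := by
  classical
  have := Fintype.ofFinite κ
  obtain ⟨T, hT⟩ := hfg
  set B := Algebra.adjoin K ((T : Set F) ∪ Set.range z)
  have hBfg : B.FG := Subalgebra.fg_def.mpr ⟨_, T.finite_toSet.union (Set.finite_range z), rfl⟩
  have frac : ∀ x : F, ∃ a ∈ B, ∃ b ∈ B, x = a / b := fun x => by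
    obtain ⟨a, ha, b, hb, h⟩ := IntermediateField.mem_adjoin_iff_div.mp
      (hT ▸ IntermediateField.mem_top : x ∈ IntermediateField.adjoin K (T : Set F))
    exact ⟨a, Algebra.adjoin_mono Set.subset_union_left ha, b,
      Algebra.adjoin_mono Set.subset_union_left hb, h⟩
  obtain ⟨φ, r, b, hφ, hint, hbB, hspan⟩ := exists_normalisation hg B hBfg frac
  let : Algebra (MvPolynomial (Fin g) K) F := φ.toRingHom.toAlgebra
  have : IsScalarTower K (MvPolynomial (Fin g) K) F :=
    IsScalarTower.of_algebraMap_eq fun a => (φ.commutes a).symm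
  have : FaithfulSMul (MvPolynomial (Fin g) K) F :=
    (faithfulSMul_iff_algebraMap_injective _ _).mpr hφ
  let : Algebra (FractionRing (MvPolynomial (Fin g) K)) F := FractionRing.liftAlgebra _ _
  set R := MvPolynomial (Fin g) K
  set L₀ := FractionRing R
  have : FiniteDimensional L₀ F := by
    have hbi : ∀ j, IsIntegral R (b j) := fun j => hint _ (hbB j)
    have hBL : ∀ x ∈ B, x ∈ Algebra.adjoin L₀ (Set.range b) := fun x hx => by
      obtain ⟨u, rfl⟩ := hspan x hx
      refine sum_mem fun j _ => mul_mem ?_ (Algebra.subset_adjoin ⟨j, rfl⟩)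
      rw [show φ (u j) = algebraMap L₀ F (algebraMap _ L₀ (u j)) from
        (IsScalarTower.algebraMap_apply _ L₀ F (u j))]
      exact Subalgebra.algebraMap_mem _ _
    have htop : Algebra.adjoin L₀ (Set.range b) = ⊤ := eq_top_iff.mpr fun x _ => by
      obtain ⟨a, ha, c, hc, rfl⟩ := frac x
      rw [div_eq_mul_inv]
      refine mul_mem (hBL a ha) ?_
      exact Subalgebra.inv_mem_of_algebraic _ (x := ⟨c, hBL c hc⟩)
        ((show IsIntegral _ c from hint c hc).tower_top (A := L₀)).isAlgebraic
    exact ⟨by rw [← Algebra.top_toSubmodule, ← htop]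
              exact fg_adjoin_of_finite (Set.finite_range b)
                (by rintro _ ⟨j, rfl⟩; exact (hbi j).tower_top)⟩
  -- the family has poles bounded by a power of the gauge
  choose e he using fun i => mem_bddAlg_of_isIntegral
    (hint (z i) (Algebra.subset_adjoin (Or.inr ⟨i, rfl⟩)))
  set C := Finset.univ.sup e + 1
  have hpole : ∀ (m : ℕ) f, f ∈ poleSpace K z m → ∀ (V : ValuationSubring F) t, Gauge φ V t →
      f / t ^ (C * m) ∈ V := fun m f hf V t ht => by
    rw [pow_mul]
    refine hf V ht.1 (t ^ C) (by rw [← inv_pow]; exact pow_mem ht.2.1 _) fun i => ?_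
    have hle : e i ≤ C := (Finset.le_sup (Finset.mem_univ i)).trans (Nat.le_succ _)
    exact div_pow_mem_of_le ht.2.1 (he i V t ht) hle
  have hpi : ∀ (m : ℕ) f, f ∈ poleSpace K z m → IsIntegral R f := fun m f hf =>
    FermatAgent.Curve.isIntegralElem_of_forall_valuationSubring _ fun V hV => by
      have := hpole m f hf V 1 ⟨fun a => by
        simpa [IsScalarTower.algebraMap_apply K R F] using hV (algebraMap K R a), by simp,
        fun i => by rw [div_one]; exact hV (X i)⟩
      simpa using this
  -- the separable part and a lattice in it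
  let E := separableClosure L₀ F
  obtain ⟨p, hp⟩ := ExpChar.exists K
  have : ExpChar F p := expChar_of_injective_algebraMap (algebraMap K F).injective p
  have : ExpChar E p := RingHom.expChar (algebraMap E F) (algebraMap E F).injective p
  have : IsScalarTower R E F := IsScalarTower.of_algebraMap_eq fun x => by
    rw [IsScalarTower.algebraMap_apply R L₀ E, ← IsScalarTower.algebraMap_apply L₀ E F,
      ← IsScalarTower.algebraMap_apply R L₀ F]
  set q := p ^ IsPurelyInseparable.exponent E F
  have hq : ∀ a : F, ∃ a' : E, (a' : F) = a ^ q := fun a => by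
    obtain ⟨a', ha'⟩ := IsPurelyInseparable.exponent_def' E p a
    exact ⟨a', ha'⟩
  have : Module.Finite R (integralClosure R E) :=
    IsIntegralClosure.finite R L₀ E (integralClosure R E)
  obtain ⟨r', c, hc⟩ := Module.Finite.exists_fin (R := R) (M := integralClosure R E)
  obtain ⟨δ, hδ⟩ := exists_finrank_le (K := K) (fun j => ((c j : E) : F))
    (fun j => ((c j).2 : IsIntegral R (c j : E)).map (IsScalarTower.toAlgHom R E F))
  refine ⟨r' * (C * q + δ + 1) ^ g, fun m => ?_⟩
  obtain ⟨W, hW, hrank⟩ := exists_pow_submodule (K := K) p (IsPurelyInseparable.exponent E F)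
    (poleSpace K z m)
  obtain ⟨hfin, hle⟩ := hδ W (C * m * q)
    (by
      intro y hy
      obtain ⟨f, hf, rfl⟩ := (hW y).1 hy
      obtain ⟨a', ha'⟩ := hq f
      have hai : IsIntegral R a' := (isIntegral_algebraMap_iff (R := R) (B := F)
        (algebraMap E F).injective).mp
          (by rw [show algebraMap E F a' = f ^ q from ha']; exact (hpi m f hf).pow q)
      obtain ⟨u, hu⟩ := (Submodule.mem_span_range_iff_exists_fun R).mp
        (hc ▸ Submodule.mem_top : (⟨a', hai⟩ : integralClosure R E) ∈
          Submodule.span R (Set.range c))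
      refine (Submodule.mem_span_range_iff_exists_fun R).mpr ⟨u, ?_⟩
      rw [← ha', ← congrArg (fun x : integralClosure R E => ((x : E) : F)) hu]
      simp)
    (fun y hy V hV => by
      obtain ⟨f, hf, rfl⟩ := (hW y).1 hy
      rw [pow_mul, ← div_pow]
      refine pow_mem (hpole m f hf V _ ?_) _
      have hR : ∀ a c : R, c ≠ 0 → a.totalDegree ≤ c.totalDegree → φ a / φ c ∈ V :=
        fun a c hc h => by
          have h' := hV _ (div_mem_degLE (L₀ := L₀) hc h)
          rwa [map_div₀, ← IsScalarTower.algebraMap_apply, ← IsScalarTower.algebraMap_apply] at h'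
      refine ⟨fun a => ?_, ?_, fun i => hR _ _ domVar_ne_zero (totalDegree_X_le_domVar i)⟩
      · simpa [IsScalarTower.algebraMap_apply K R F] using hR (MvPolynomial.C a) 1 one_ne_zero
          (by simp)
      · rw [← one_div, ← map_one φ]
        exact hR _ _ domVar_ne_zero (by simp))
  refine ⟨Module.rank_lt_aleph0_iff.mp (hrank ▸ Module.rank_lt_aleph0 K W), ?_⟩
  rw [Module.finrank, hrank]
  refine hle.trans ?_
  rw [mul_assoc r', ← mul_pow]
  refine Nat.mul_le_mul_left r' (Nat.pow_le_pow_left ?_ g)
  nlinarith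

/-- **The lower bound**: if `F` is algebraic over `K[z]`, then the functions with poles at most
`g m` times those of `z` form a space of dimension at least `(m + 1) ^ g`. -/
theorem exists_le_finrank_poleSpace [PerfectField K] [Finite κ] (z : κ → F)
    (hfg : (⊤ : IntermediateField K F).FG) (hg : Algebra.trdeg K F = g)
    [Algebra.IsAlgebraic (Algebra.adjoin K (Set.range z)) F] (m : ℕ) :
    (m + 1) ^ g ≤ Module.finrank K (poleSpace K z (g * m)) := by
  classical
  obtain ⟨t, hts, ht⟩ := exists_isTranscendenceBasis_subset (R := K) (Set.range z)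
  have hcard : Cardinal.mk t = g := ht.cardinalMk_eq_trdeg.trans hg
  have : Finite t := ((Set.finite_range z).subset hts).to_subtype
  obtain ⟨e⟩ : Nonempty (Fin g ≃ t) := by
    refine ⟨(Finite.equivFinOfCardEq ?_).symm⟩
    rw [Nat.card, hcard, Cardinal.toNat_natCast]
  set y : Fin g → F := fun i => (e i : F)
  have hy : AlgebraicIndependent K y := ht.1.comp e e.injective
  have := ((exists_finrank_poleSpace_le z hfg hg).choose_spec (g * m)).1
  rw [← finrank_restrictDegree_eq (K := K) g m]
  have hmem : ∀ p ∈ restrictDegree (Fin g) K m, aeval y p ∈ poleSpace K z (g * m) := by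
    intro p hp
    rw [mem_restrictDegree] at hp
    rw [p.as_sum, map_sum]
    refine Submodule.sum_mem _ fun x hx => ?_
    rw [aeval_monomial, ← Algebra.smul_def]
    refine Submodule.smul_mem _ _ ?_
    rw [Finsupp.prod_fintype _ _ fun i => pow_zero _]
    refine poleSpace_mono (m := ∑ i, x i * 1) ?_ ?_
    · calc (∑ i, x i * 1) ≤ ∑ _i : Fin g, m :=
            Finset.sum_le_sum fun i _ => (mul_one _).trans_le (hp x hx i)
        _ = g * m := by simp
    · induction (Finset.univ : Finset (Fin g)) using Finset.induction_on with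
      | empty => simpa using one_mem_poleSpace 0
      | insert i s hi ih =>
        rw [Finset.prod_insert hi, Finset.sum_insert hi]
        refine mul_mem_poleSpace (pow_mem_poleSpace ?_ _) ih
        obtain ⟨k, hk⟩ := hts (e i).2
        rw [← show z k = y i from hk]
        exact self_mem_poleSpace k
  exact LinearMap.finrank_le_finrank_of_injective
    (f := ((aeval y).toLinearMap.comp (restrictDegree (Fin g) K m).subtype).codRestrict
      (poleSpace K z (g * m)) fun p => hmem _ p.2)
    fun p q h => Subtype.ext (hy (congrArg Subtype.val h))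

end FermatAgent.AV.Bound
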