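import Fermat.Agent.AV.Defs
import Fermat.Agent.AV.Bound.Pole

/-!
# Growth of the spaces of a big divisor

The functions of a big divisor lie between two pole spaces of finitely many functions.
-/

set_option autoImplicit false

noncomputable section

universe u

namespace FermatAgent.AV

open FermatAgent.AV.Bound

variable {K : Type u} [Field K] {F : Type u} [Field F] [Algebra K F] {D : vDiv K F}

theorem coe_pow_apply (D : vDiv K F) (m : ℕ) (V : KVal K F) :
    (((D ^ m).1 V : Fˣ) : F) = (D.1 V : F) ^ m := by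
  rw [SubmonoidClass.coe_pow, Pi.pow_apply, Units.val_pow_eq_pow_val]

theorem vL_pow_mono (hD : ∀ V : KVal K F, (D.1 V : F) ∈ V.1) {m m' : ℕ} (h : m ≤ m') :
    vL (D ^ m) ≤ vL (D ^ m') := fun f hf V => by
  have h1 := hf V
  rw [coe_pow_apply] at h1 ⊢
  rw [← Nat.add_sub_cancel' h, pow_add, ← mul_assoc]
  exact V.1.mul_mem _ _ h1 (pow_mem (hD V) _)

theorem vL_pow_le_poleSpace {Z : Finset Fˣ}
    (hZ : ∀ V : KVal K F, ∃ z ∈ Z, z * D.1 V ∈ V.1.unitGroup) (m : ℕ) :
    vL (D ^ m) ≤ poleSpace K (fun z : Z => ((z.1 : Fˣ) : F)) m := fun f hf => by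
  rw [mem_poleSpace_iff]
  intro V hV
  obtain ⟨z, hz, hu⟩ := hZ ⟨V, hV⟩
  refine Or.inr ⟨⟨z, hz⟩, z.ne_zero, ?_⟩
  have h1 := hf ⟨V, hV⟩
  rw [coe_pow_apply] at h1
  have h2 : (((z * D.1 ⟨V, hV⟩)⁻¹ : Fˣ) : F) ∈ V :=
    V.mem_of_valuation_le_one _ (le_of_eq (inv_mem hu))
  rw [Units.val_inv_eq_inv_val, Units.val_mul] at h2
  have h3 : f / (z : F) ^ m =
      f * (D.1 ⟨V, hV⟩ : F) ^ m * ((z : F) * (D.1 ⟨V, hV⟩ : F))⁻¹ ^ m := by
    rw [inv_pow, mul_pow]
    field_simp
  rw [h3]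
  exact V.mul_mem _ _ h1 (pow_mem h2 m)

theorem poleSpace_le_vL_pow {y : Finset F} (hD : ∀ V : KVal K F, (D.1 V : F) ∈ V.1)
    (hy : ∀ a ∈ y, a ∈ vL D) (m : ℕ) :
    poleSpace K (fun a : y => (a : F)) m ≤ vL (D ^ m) := fun f hf V => by
  have h := hf V.1 V.2 (D.1 V : F)⁻¹ (by rw [inv_inv]; exact hD V) fun a => by
    rw [div_inv_eq_mul]; exact hy a.1 a.2 V
  rw [coe_pow_apply]
  rwa [inv_pow, div_inv_eq_mul] at h

/-- **Growth bounds**: for a big divisor `D` on a function field of `g` variables over an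
algebraically closed field the spaces `L(m D)` are finite-dimensional, of dimension between
`m ^ g / C` and `C m ^ g`. -/
theorem growthBounds [IsAlgClosed K] (F : Type u) [Field F] [Algebra K F]
    [Algebra.EssFiniteType K F] (g : ℕ) (hg : Algebra.trdeg K F = g) (D : vDiv K F) (hD : IsBig D) :
    ∃ C : ℕ, 0 < C ∧ (∀ m : ℕ, FiniteDimensional K (vL (D ^ m))) ∧
      (∀ m : ℕ, 0 < m → Module.finrank K (vL (D ^ m)) ≤ C * m ^ g) ∧
      ∀ m : ℕ, 0 < m → m ^ g ≤ C * Module.finrank K (vL (D ^ m)) := by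
  classical
  have hfg : (⊤ : IntermediateField K F).FG := IntermediateField.fg_top_iff.mpr inferInstance
  obtain ⟨Z, hZ⟩ := hD.bounded
  obtain ⟨y, hy, hyL⟩ := hD.gens
  obtain ⟨c, hc⟩ := exists_finrank_poleSpace_le (fun z : Z => ((z.1 : Fˣ) : F)) hfg hg
  have hfin : ∀ m : ℕ, FiniteDimensional K (vL (D ^ m)) := fun m => by
    have := (hc m).1
    exact Module.Finite.of_injective (Submodule.inclusion (vL_pow_le_poleSpace hZ m))
      (Submodule.inclusion_injective _)
  have : Algebra.IsAlgebraic (Algebra.adjoin K (Set.range fun a : y => (a : F))) F := by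
    rw [show (Set.range fun a : y => (a : F)) = (y : Set F) by ext; simp]
    refine ⟨fun x => ?_⟩
    obtain ⟨a, ha, b, hb, rfl⟩ := IntermediateField.mem_adjoin_iff_div.mp
      (hy ▸ IntermediateField.mem_top : x ∈ IntermediateField.adjoin K (y : Set F))
    rw [div_eq_mul_inv]
    exact (isAlgebraic_algebraMap (R := Algebra.adjoin K (y : Set F)) ⟨a, ha⟩).mul
      (isAlgebraic_algebraMap (R := Algebra.adjoin K (y : Set F)) ⟨b, hb⟩).inv
  refine ⟨c * 2 ^ g + g ^ g + 1, Nat.succ_pos _, hfin, fun m hm => ?_, fun m hm => ?_⟩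
  · have := (hc m).1
    refine ((Submodule.finrank_mono (vL_pow_le_poleSpace hZ m)).trans (hc m).2).trans ?_
    calc c * (m + 1) ^ g ≤ c * (2 * m) ^ g :=
          Nat.mul_le_mul_left c (Nat.pow_le_pow_left (by omega) g)
      _ = c * 2 ^ g * m ^ g := by rw [mul_pow, mul_assoc]
      _ ≤ _ := Nat.mul_le_mul_right _ (by omega)
  · have := hfin m
    have h1 : (m / g + 1) ^ g ≤ Module.finrank K (vL (D ^ m)) :=
      (exists_le_finrank_poleSpace _ hfg hg (m / g)).trans (Submodule.finrank_mono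
        ((poleSpace_le_vL_pow hD.effective hyL _).trans
          (vL_pow_mono hD.effective (Nat.mul_div_le m g))))
    have h2 : m ^ g ≤ g ^ g * (m / g + 1) ^ g := by
      rcases Nat.eq_zero_or_pos g with rfl | h0
      · simp
      · rw [← mul_pow]
        exact Nat.pow_le_pow_left (Nat.lt_mul_div_succ m h0).le g
    exact h2.trans (Nat.mul_le_mul (by omega) h1)

end FermatAgent.AV
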